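/-
GAMMA-CHART-NOD (helper1), part 1: the abstract genericity argument on a two-component curve.

An "L-calculus" `L : (X₁ →₀ ℕ) → (X₂ →₀ ℕ) → Submodule k V` (effective divisors on the smooth
points of the two components ↦ spaces of sections) which is monotone, finite-dimensional and
satisfies `L E ⊓ L E' ≤ L (E ⊓ E')`.  If `ℓ(E) + p_a ≤ deg E + 1` for all `E` of multidegree
`≥ (M, M)` (nodal Riemann–Roch in large multidegree), `ℓ(0) = 1` and both components have
infinitely many points, then for all finite sets `S₁, S₂` of points there is an effective `E`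
of total degree `p_a`, disjoint from `S₁, S₂`, with `ℓ(E) = 1`.

No duality: if `ℓ(E) = 1`, `deg E < p_a` and BOTH components had infinitely many points `P` with
`ℓ(E + P) ≥ 2`, then adding `M` such points on each component gives
`ℓ ≥ 1 + 2M > deg E + 2M + 1 - p_a`, against Riemann–Roch in large multidegree.

* `S33hCalc`, `S33hCalc.swap`;
* `s33hBad`, `s33hPts`;
* `s33h_finrank_add_single`, `s33h_finrank_add_pts`;
* `s33h_bad_finite`   : one of the two bad sets is finite;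
* `s33h_abs_exists_generic`.
-/
import Mathlib

set_option autoImplicit false

namespace Fermat.Agent.S33

open Module

variable {k V : Type*} [Field k] [AddCommGroup V] [Module k V] {X₁ X₂ : Type*}

/-- an abstract calculus of spaces of sections of effective divisors on a curve with two
components: finite-dimensional, monotone, and compatible with infima. -/
structure S33hCalc (L : (X₁ →₀ ℕ) → (X₂ →₀ ℕ) → Submodule k V) : Prop where
  fin : ∀ E₁ E₂, Module.Finite k ↥(L E₁ E₂)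
  mono : ∀ {E₁ E₁' : X₁ →₀ ℕ} {E₂ E₂' : X₂ →₀ ℕ}, E₁ ≤ E₁' → E₂ ≤ E₂' → L E₁ E₂ ≤ L E₁' E₂'
  inf : ∀ (E₁ E₁' : X₁ →₀ ℕ) (E₂ E₂' : X₂ →₀ ℕ),
    L E₁ E₂ ⊓ L E₁' E₂' ≤ L (E₁ ⊓ E₁') (E₂ ⊓ E₂')

theorem S33hCalc.swap {L : (X₁ →₀ ℕ) → (X₂ →₀ ℕ) → Submodule k V} (hC : S33hCalc L) :
    S33hCalc (fun (E₂ : X₂ →₀ ℕ) (E₁ : X₁ →₀ ℕ) => L E₁ E₂) where
  fin := fun E₂ E₁ => hC.fin E₁ E₂
  mono := fun h₂ h₁ => hC.mono h₁ h₂
  inf := fun E₂ E₂' E₁ E₁' => hC.inf E₁ E₁' E₂ E₂'

/-- the points of the first component which do not keep `L` constant. -/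
def s33hBad (L : (X₁ →₀ ℕ) → (X₂ →₀ ℕ) → Submodule k V) (E₁ : X₁ →₀ ℕ) (E₂ : X₂ →₀ ℕ) :
    Set X₁ :=
  {P | ¬ L (E₁ + Finsupp.single P 1) E₂ ≤ L E₁ E₂}

/-- the reduced effective divisor of a finite set of points. -/
noncomputable def s33hPts {X : Type*} (T : Finset X) : X →₀ ℕ := ∑ t ∈ T, Finsupp.single t 1

theorem s33hPts_apply_of_notMem {X : Type*} (T : Finset X) {P : X} (hP : P ∉ T) :
    s33hPts T P = 0 := by
  classical
  rw [s33hPts, Finsupp.finsetSum_apply]
  refine Finset.sum_eq_zero fun t ht => ?_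
  rw [Finsupp.single_apply, if_neg]
  rintro rfl
  exact hP ht

theorem s33hPts_apply_of_mem {X : Type*} (T : Finset X) {P : X} (hP : P ∈ T) :
    s33hPts T P = 1 := by
  classical
  rw [s33hPts, Finsupp.finsetSum_apply, Finset.sum_eq_single_of_mem P hP]
  · rw [Finsupp.single_eq_same]
  · intro t _ htP
    rw [Finsupp.single_apply, if_neg htP]

theorem s33hPts_insert {X : Type*} [DecidableEq X] (T : Finset X) {P : X} (hP : P ∉ T) :
    s33hPts (insert P T) = s33hPts T + Finsupp.single P 1 := by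
  rw [s33hPts, Finset.sum_insert hP, add_comm]
  rfl

theorem s33hPts_degree {X : Type*} (T : Finset X) : (s33hPts T).degree = T.card := by
  classical
  induction T using Finset.induction_on with
  | empty => simp [s33hPts]
  | insert a s ha ih =>
    rw [s33hPts_insert s ha, map_add, ih, Finsupp.degree_single, Finset.card_insert_of_notMem ha]

variable {L : (X₁ →₀ ℕ) → (X₂ →₀ ℕ) → Submodule k V}

/-- a bad point for `(E₁, E₂)` strictly raises the dimension over every larger `(A₁, A₂)` in which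
it has not yet been added. -/
theorem s33h_finrank_add_single (hC : S33hCalc L) {E₁ A₁ : X₁ →₀ ℕ} {E₂ A₂ : X₂ →₀ ℕ}
    (h₁ : E₁ ≤ A₁) (h₂ : E₂ ≤ A₂) {P : X₁} (hP : A₁ P = E₁ P) (hbad : P ∈ s33hBad L E₁ E₂) :
    finrank k ↥(L A₁ A₂) + 1 ≤ finrank k ↥(L (A₁ + Finsupp.single P 1) A₂) := by
  classical
  obtain ⟨f, hf, hf'⟩ := SetLike.not_le_iff_exists.mp hbad
  have hle : L A₁ A₂ ≤ L (A₁ + Finsupp.single P 1) A₂ :=
    hC.mono (le_self_add) le_rfl
  have hfA : f ∈ L (A₁ + Finsupp.single P 1) A₂ :=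
    hC.mono (add_le_add_left h₁ _) h₂ hf
  have hfnA : f ∉ L A₁ A₂ := by
    intro hfA'
    have h := hC.inf _ _ _ _ (Submodule.mem_inf.mpr ⟨hf, hfA'⟩)
    have e₁ : (E₁ + Finsupp.single P 1) ⊓ A₁ = E₁ := by
      ext v
      rw [Finsupp.inf_apply, Finsupp.add_apply]
      by_cases hv : v = P
      · subst hv
        rw [Finsupp.single_eq_same, hP]
        omega
      · rw [Finsupp.single_eq_of_ne hv, add_zero]
        exact inf_eq_left.mpr (h₁ v)
    have e₂ : E₂ ⊓ A₂ = E₂ := inf_eq_left.mpr h₂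
    rw [e₁, e₂] at h
    exact hf' h
  have hlt : L A₁ A₂ < L (A₁ + Finsupp.single P 1) A₂ :=
    lt_of_le_of_ne hle (fun h => hfnA (h ▸ hfA))
  have := hC.fin (A₁ + Finsupp.single P 1) A₂
  have := Submodule.finrank_lt_finrank_of_lt hlt
  omega

/-- adding a finite set `T` of bad points raises the dimension by at least `#T`. -/
theorem s33h_finrank_add_pts (hC : S33hCalc L) {E₁ A₁ : X₁ →₀ ℕ} {E₂ A₂ : X₂ →₀ ℕ}
    (h₁ : E₁ ≤ A₁) (h₂ : E₂ ≤ A₂) (T : Finset X₁) (hT : ∀ t ∈ T, t ∈ s33hBad L E₁ E₂)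
    (hTA : ∀ t ∈ T, A₁ t = E₁ t) :
    finrank k ↥(L A₁ A₂) + T.card ≤ finrank k ↥(L (A₁ + s33hPts T) A₂) := by
  classical
  induction T using Finset.induction_on with
  | empty =>
    have : s33hPts (∅ : Finset X₁) = 0 := by simp [s33hPts]
    rw [this, add_zero, Finset.card_empty, add_zero]
  | insert a s ha ih =>
    have ih' := ih (fun t ht => hT t (Finset.mem_insert_of_mem ht))
      (fun t ht => hTA t (Finset.mem_insert_of_mem ht))
    rw [s33hPts_insert s ha, ← add_assoc, Finset.card_insert_of_notMem ha]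
    have hstep := s33h_finrank_add_single hC (E₁ := E₁) (A₁ := A₁ + s33hPts s) (A₂ := A₂)
      (h₁.trans le_self_add) h₂ (P := a)
      (by rw [Finsupp.add_apply, s33hPts_apply_of_notMem s ha, add_zero,
        hTA a (Finset.mem_insert_self a s)])
      (hT a (Finset.mem_insert_self a s))
    omega

/-- **key step**: if `ℓ(E) = 1` and `deg E < p_a`, then on at least one of the two components only
finitely many points raise `ℓ`.  (Riemann–Roch in large multidegree is only needed for divisors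
avoiding the given finite sets `S₁`, `S₂`.) -/
theorem s33h_bad_finite (hC : S33hCalc L) (pa M : ℕ) {S₁ : Set X₁} {S₂ : Set X₂}
    (hS₁ : S₁.Finite) (hS₂ : S₂.Finite)
    (hN1 : ∀ E₁ E₂, (∀ v ∈ S₁, E₁ v = 0) → (∀ v ∈ S₂, E₂ v = 0) → M ≤ E₁.degree →
      M ≤ E₂.degree → finrank k ↥(L E₁ E₂) + pa ≤ E₁.degree + E₂.degree + 1)
    {E₁ : X₁ →₀ ℕ} {E₂ : X₂ →₀ ℕ} (hE₁ : ∀ v ∈ S₁, E₁ v = 0) (hE₂ : ∀ v ∈ S₂, E₂ v = 0)
    (hell : finrank k ↥(L E₁ E₂) = 1)
    (hdeg : E₁.degree + E₂.degree < pa) :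
    (s33hBad L E₁ E₂).Finite ∨
      (s33hBad (fun (E₂ : X₂ →₀ ℕ) (E₁ : X₁ →₀ ℕ) => L E₁ E₂) E₂ E₁).Finite := by
  by_contra hcon
  rw [not_or] at hcon
  obtain ⟨hb₁, hb₂⟩ := hcon
  obtain ⟨T₁, hT₁, hT₁c⟩ := ((Set.not_finite.mp hb₁).sdiff hS₁).exists_subset_card_eq M
  obtain ⟨T₂, hT₂, hT₂c⟩ := ((Set.not_finite.mp hb₂).sdiff hS₂).exists_subset_card_eq M
  have s1 := s33h_finrank_add_pts hC (E₁ := E₁) (A₁ := E₁) (E₂ := E₂) (A₂ := E₂) le_rfl le_rfl T₁
    (fun t ht => (hT₁ ht).1) (fun _ _ => rfl)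
  have s2 := s33h_finrank_add_pts hC.swap (E₁ := E₂) (A₁ := E₂) (E₂ := E₁)
    (A₂ := E₁ + s33hPts T₁) le_rfl le_self_add T₂ (fun t ht => (hT₂ ht).1) (fun _ _ => rfl)
  have s3 := hN1 (E₁ + s33hPts T₁) (E₂ + s33hPts T₂)
    (fun v hv => by
      have hvT : v ∉ T₁ := fun h => (hT₁ h).2 hv
      rw [Finsupp.add_apply, hE₁ v hv, s33hPts_apply_of_notMem T₁ hvT])
    (fun v hv => by
      have hvT : v ∉ T₂ := fun h => (hT₂ h).2 hv
      rw [Finsupp.add_apply, hE₂ v hv, s33hPts_apply_of_notMem T₂ hvT])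
    (by rw [map_add, s33hPts_degree, hT₁c]; omega)
    (by rw [map_add, s33hPts_degree, hT₂c]; omega)
  rw [map_add, map_add, s33hPts_degree, s33hPts_degree, hT₁c, hT₂c] at s3
  rw [hT₁c] at s1
  rw [hT₂c] at s2
  omega

/-- **abstract generic divisor**: an effective multiplicity-free `E = (E₁, E₂)` of total degree
`p_a`, disjoint from given finite sets, with `ℓ(E) = 1`. -/
theorem s33h_abs_exists_generic [Infinite X₁] [Infinite X₂] (hC : S33hCalc L) (pa M : ℕ)
    {S₁ : Set X₁} {S₂ : Set X₂} (hS₁ : S₁.Finite) (hS₂ : S₂.Finite)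
    (hN1 : ∀ E₁ E₂, (∀ v ∈ S₁, E₁ v = 0) → (∀ v ∈ S₂, E₂ v = 0) → M ≤ E₁.degree →
      M ≤ E₂.degree → finrank k ↥(L E₁ E₂) + pa ≤ E₁.degree + E₂.degree + 1)
    (h0 : finrank k ↥(L 0 0) = 1) :
    ∃ (E₁ : X₁ →₀ ℕ) (E₂ : X₂ →₀ ℕ), (∀ v ∈ S₁, E₁ v = 0) ∧ (∀ v ∈ S₂, E₂ v = 0) ∧
      (∀ v, E₁ v ≤ 1) ∧ (∀ v, E₂ v ≤ 1) ∧
      E₁.degree + E₂.degree = pa ∧ finrank k ↥(L E₁ E₂) = 1 := by
  classical
  have step : ∀ j : ℕ, j ≤ pa → ∃ (E₁ : X₁ →₀ ℕ) (E₂ : X₂ →₀ ℕ), (∀ v ∈ S₁, E₁ v = 0) ∧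
      (∀ v ∈ S₂, E₂ v = 0) ∧ (∀ v, E₁ v ≤ 1) ∧ (∀ v, E₂ v ≤ 1) ∧
      E₁.degree + E₂.degree = j ∧ finrank k ↥(L E₁ E₂) = 1 := by
    intro j
    induction j with
    | zero =>
      intro _
      exact ⟨0, 0, fun _ _ => rfl, fun _ _ => rfl, fun _ => Nat.zero_le _, fun _ => Nat.zero_le _,
        by simp, h0⟩
    | succ j ih =>
      intro hj
      obtain ⟨E₁, E₂, hE₁, hE₂, hm₁, hm₂, hdeg, hell⟩ := ih (by omega)
      rcases s33h_bad_finite hC pa M hS₁ hS₂ hN1 hE₁ hE₂ hell (by omega) with hb | hb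
      · obtain ⟨P, hP⟩ :=
          (((hS₁.union hb).union E₁.support.finite_toSet).infinite_compl).nonempty
        rw [Set.mem_compl_iff, Set.mem_union, Set.mem_union, not_or, not_or] at hP
        obtain ⟨⟨hPS, hPb⟩, hPE⟩ := hP
        have hPE0 : E₁ P = 0 := by
          by_contra h
          exact hPE (Finsupp.mem_support_iff.mpr h)
        refine ⟨E₁ + Finsupp.single P 1, E₂, ?_, hE₂, ?_, hm₂, ?_, ?_⟩
        · intro v hv
          have hvP : v ≠ P := by
            rintro rfl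
            exact hPS hv
          rw [Finsupp.add_apply, hE₁ v hv, Finsupp.single_eq_of_ne hvP, add_zero]
        · intro v
          by_cases hvP : v = P
          · subst hvP
            rw [Finsupp.add_apply, hPE0, Finsupp.single_eq_same]
          · rw [Finsupp.add_apply, Finsupp.single_eq_of_ne hvP, add_zero]
            exact hm₁ v
        · rw [map_add, Finsupp.degree_single]
          omega
        · have hle : L (E₁ + Finsupp.single P 1) E₂ ≤ L E₁ E₂ := by
            by_contra h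
            exact hPb h
          have hge : L E₁ E₂ ≤ L (E₁ + Finsupp.single P 1) E₂ := hC.mono le_self_add le_rfl
          rw [le_antisymm hle hge, hell]
      · obtain ⟨P, hP⟩ :=
          (((hS₂.union hb).union E₂.support.finite_toSet).infinite_compl).nonempty
        rw [Set.mem_compl_iff, Set.mem_union, Set.mem_union, not_or, not_or] at hP
        obtain ⟨⟨hPS, hPb⟩, hPE⟩ := hP
        have hPE0 : E₂ P = 0 := by
          by_contra h
          exact hPE (Finsupp.mem_support_iff.mpr h)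
        refine ⟨E₁, E₂ + Finsupp.single P 1, hE₁, ?_, hm₁, ?_, ?_, ?_⟩
        · intro v hv
          have hvP : v ≠ P := by
            rintro rfl
            exact hPS hv
          rw [Finsupp.add_apply, hE₂ v hv, Finsupp.single_eq_of_ne hvP, add_zero]
        · intro v
          by_cases hvP : v = P
          · subst hvP
            rw [Finsupp.add_apply, hPE0, Finsupp.single_eq_same]
          · rw [Finsupp.add_apply, Finsupp.single_eq_of_ne hvP, add_zero]
            exact hm₂ v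
        · rw [map_add, Finsupp.degree_single]
          omega
        · have hle : L E₁ (E₂ + Finsupp.single P 1) ≤ L E₁ E₂ := by
            by_contra h
            exact hPb h
          have hge : L E₁ E₂ ≤ L E₁ (E₂ + Finsupp.single P 1) := hC.mono le_rfl le_self_add
          rw [le_antisymm hle hge, hell]
  exact step pa le_rfl

end Fermat.Agent.S33
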