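/-
GAMMA (helper1): **ROOT** (= (X2) of the RED/BRIDGE plan) on the abstract nodal curve of
`Lib/S33/Nod/Defs.lean`, in characteristic `p`:

  `t ^ p ∈ s33nL N (p • A₁) (p • A₂)  →  t ∈ s33nL N A₁ A₂`.

Pole orders divide by `p`; regularity at the nodes descends (valuation rings are integrally
closed); and the gluing algebra `Δ ⊆ k^σ` (an ARBITRARY subalgebra) is closed under `p`-th roots,
because Frobenius is a semilinear injection of the finite-dimensional space `Δ` into itself over a
perfect field, hence onto.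

* `s33h_subalgebra_root` : `f ^ p ∈ Δ → f ∈ Δ` for a subalgebra `Δ` of `ι → k`, `ι` finite;
* `s33nVal_pow`, `s33nEv_pow`;
* `s33h_root`.
-/
import Mathlib
import Fermat.Agent.Lib.S33.Nod.Defs

set_option autoImplicit false
set_option linter.unusedSectionVars false

namespace Fermat.Agent.S33

open Module Fermat.Agent.Curve Fermat.Agent.CurveP AlgebraicCurve PlaceAux RRAux Fermat.Agent.Alpha
  Fermat.Agent.S33N

/-- **subalgebras of `k^ι` are closed under `p`-th roots** (`k` algebraically closed of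
characteristic exponent `p`, `ι` finite). -/
theorem s33h_subalgebra_root {k ι : Type*} [Field k] [IsAlgClosed k] [Finite ι] (p : ℕ)
    [ExpChar k p] (Δ : Subalgebra k (ι → k)) {f : ι → k} (hf : f ^ p ∈ Δ) : f ∈ Δ := by
  classical
  have hp : 0 < p := expChar_pos k p
  have : Fintype ι := Fintype.ofFinite ι
  have : FiniteDimensional k ↥Δ :=
    FiniteDimensional.of_injective (Subalgebra.toSubmodule Δ).subtype Subtype.val_injective
  set n := finrank k ↥Δ with hn
  let b : Basis (Fin n) k ↥Δ := Module.finBasis k ↥Δ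
  let g : Fin n → ↥Δ := fun i => (b i) ^ p
  have hroot : ∀ c : k, ∃ d : k, d ^ p = c := fun c => IsAlgClosed.exists_pow_nat_eq c hp
  -- pointwise identity
  have key : ∀ (d : Fin n → k) (x : ι),
      ((∑ i, (d i) ^ p • g i : ↥Δ) : ι → k) x = (((∑ i, d i • b i : ↥Δ) : ι → k) x) ^ p := by
    intro d x
    have h1 : ((∑ i, (d i) ^ p • g i : ↥Δ) : ι → k) x =
        ∑ i, (d i) ^ p * (((b i : ↥Δ) : ι → k) x) ^ p := by
      rw [show ((∑ i, (d i) ^ p • g i : ↥Δ) : ι → k) = ∑ i, (((d i) ^ p • g i : ↥Δ) : ι → k) from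
        map_sum (Subalgebra.val Δ) _ _, Finset.sum_apply]
      rfl
    have h2 : ((∑ i, d i • b i : ↥Δ) : ι → k) x = ∑ i, d i * ((b i : ↥Δ) : ι → k) x := by
      rw [show ((∑ i, d i • b i : ↥Δ) : ι → k) = ∑ i, ((d i • b i : ↥Δ) : ι → k) from
        map_sum (Subalgebra.val Δ) _ _, Finset.sum_apply]
      rfl
    rw [h1, h2, sum_pow_char]
    exact Finset.sum_congr rfl fun i _ => (mul_pow _ _ _).symm
  -- the `p`-th powers of the basis are linearly independent
  have hg : LinearIndependent k g := by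
    rw [Fintype.linearIndependent_iff]
    intro c hc i
    choose d hd using hroot
    have h0 : (∑ j, d (c j) • b j : ↥Δ) = 0 := by
      apply Subtype.ext
      funext x
      have := key (fun j => d (c j)) x
      simp only [hd] at this
      rw [hc] at this
      have h3 : (((∑ j, d (c j) • b j : ↥Δ) : ι → k) x) ^ p = 0 := by
        rw [← this]
        rfl
      exact pow_eq_zero_iff hp.ne' |>.mp h3
    have := Fintype.linearIndependent_iff.mp b.linearIndependent (fun j => d (c j)) h0 i
    rw [← hd (c i), this, zero_pow hp.ne']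
  have hspan : Submodule.span k (Set.range g) = ⊤ :=
    hg.span_eq_top_of_card_eq_finrank' (by rw [Fintype.card_fin])
  have hmem : (⟨f ^ p, hf⟩ : ↥Δ) ∈ Submodule.span k (Set.range g) := by
    rw [hspan]
    exact Submodule.mem_top
  obtain ⟨c, hc⟩ := (Submodule.mem_span_range_iff_exists_fun k).mp hmem
  choose d hd using hroot
  have hfd : f = ((∑ j, d (c j) • b j : ↥Δ) : ι → k) := by
    funext x
    have := key (fun j => d (c j)) x
    simp only [hd] at this
    rw [hc] at this
    have h3 : (f x) ^ p = (((∑ j, d (c j) • b j : ↥Δ) : ι → k) x) ^ p := by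
      rw [← this]
      rfl
    exact frobenius_inj k p h3
  rw [hfd]
  exact (∑ j, d (c j) • b j : ↥Δ).2

section Val

variable {k F : Type*} [Field k] [Field F] [Algebra k F]

theorem s33n_hasVal_pow {v : Place k F} {f : F} (hf : S33nHasVal v f) (n : ℕ) :
    S33nHasVal v (f ^ n) := by
  induction n with
  | zero => rw [pow_zero]; exact s33n_hasVal_one v
  | succ n ih => rw [pow_succ]; exact ih.mul hf

theorem s33nVal_pow {v : Place k F} {f : F} (hf : S33nHasVal v f) (n : ℕ) :
    s33nVal v (f ^ n) = s33nVal v f ^ n := by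
  induction n with
  | zero => rw [pow_zero, pow_zero]; exact s33nVal_one v
  | succ n ih => rw [pow_succ, pow_succ, s33nVal_mul (s33n_hasVal_pow hf n) hf, ih]

/-- integral closedness of the valuation ring, in `ord` language. -/
theorem s33h_mem_of_pow_mem (v : Place k F) {f : F} {n : ℕ} (hn : 0 < n)
    (h : f ^ n ∈ v.toValuationSubring) : f ∈ v.toValuationSubring := by
  rw [PlaceAux.mem_iff] at h ⊢
  by_cases hf0 : f = 0
  · exact Or.inl hf0
  · right
    rcases h with h | h
    · exact absurd (pow_eq_zero_iff hn.ne' |>.mp h) hf0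
    · have hpow : v.ord (f ^ n) = n * v.ord f := by rw [← zpow_natCast, v.ord_zpow]
      rw [hpow] at h
      have hn' : (0 : ℤ) < n := by exact_mod_cast hn
      by_contra hlt
      push Not at hlt
      have : (n : ℤ) * v.ord f < 0 := mul_neg_of_pos_of_neg hn' hlt
      omega

/-- `f ^ n ∈ L(n • A) → f ∈ L(A)`. -/
theorem s33h_mem_rr_of_pow_mem {A : Divisor k F} {f : F} {n : ℕ} (hn : 0 < n)
    (h : f ^ n ∈ riemannRochSpace (n • A)) : f ∈ riemannRochSpace A := by
  rw [mem_riemannRochSpace_iff] at h ⊢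
  intro w
  by_cases hf0 : f = 0
  · exact Or.inl hf0
  · right
    rcases h w with h | h
    · exact absurd (pow_eq_zero_iff hn.ne' |>.mp h) hf0
    · have hpow : w.ord (f ^ n) = n * w.ord f := by rw [← zpow_natCast, w.ord_zpow]
      rw [hpow, Finsupp.smul_apply, nsmul_eq_mul] at h
      have hn' : (0 : ℤ) < n := by exact_mod_cast hn
      by_contra hlt
      push Not at hlt
      have h1 : (n : ℤ) * w.ord f < n * (-A w) := mul_lt_mul_of_pos_left hlt hn'
      have h2 : (n : ℤ) * (-A w) = -(n * A w) := by ring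
      omega

end Val

section Nod

variable {k F₁ F₂ σ₁ σ₂ : Type*} [Field k] [Field F₁] [Field F₂] [Algebra k F₁] [Algebra k F₂]
  [IsAlgClosed k] (N : S33nDatum k F₁ F₂ σ₁ σ₂)

theorem s33n_reg_pow {t : F₁ × F₂} (ht : S33nReg N t) (n : ℕ) : S33nReg N (t ^ n) :=
  ⟨fun s => by rw [Prod.pow_fst]; exact s33n_hasVal_pow (ht.1 s) n,
    fun s => by rw [Prod.pow_snd]; exact s33n_hasVal_pow (ht.2 s) n⟩

theorem s33nEv_pow {t : F₁ × F₂} (ht : S33nReg N t) (n : ℕ) :
    s33nEv N (t ^ n) = s33nEv N t ^ n := by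
  funext s
  rcases s with s | s
  · rw [s33nEv_inl, Prod.pow_fst, Pi.pow_apply, s33nEv_inl]
    exact s33nVal_pow (ht.1 s) n
  · rw [s33nEv_inr, Prod.pow_snd, Pi.pow_apply, s33nEv_inr]
    exact s33nVal_pow (ht.2 s) n

variable {x₁ : F₁} {x₂ : F₂} (hx₁ : IsFunctionFieldGen k F₁ x₁) (hx₂ : IsFunctionFieldGen k F₂ x₂)

include hx₁ hx₂ in
/-- **ROOT**: in characteristic exponent `p`, a `p`-th root of a section of `p • A` is a section
of `A`. -/
theorem s33h_root [Finite σ₁] [Finite σ₂] (p : ℕ) [ExpChar k p] {A₁ : Divisor k F₁}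
    {A₂ : Divisor k F₂} {t : F₁ × F₂} (ht : t ^ p ∈ s33nL N (p • A₁) (p • A₂)) :
    t ∈ s33nL N A₁ A₂ := by
  have hp : 0 < p := expChar_pos k p
  obtain ⟨h1, h2, hr, he⟩ := ht
  rw [Prod.pow_fst] at h1
  rw [Prod.pow_snd] at h2
  have hreg : S33nReg N t := by
    constructor
    · intro s
      have := (hr.1 s).mem
      rw [Prod.pow_fst] at this
      exact s33n_hasVal_of_mem hx₁ (s33h_mem_of_pow_mem _ hp this)
    · intro s
      have := (hr.2 s).mem
      rw [Prod.pow_snd] at this
      exact s33n_hasVal_of_mem hx₂ (s33h_mem_of_pow_mem _ hp this)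
  refine ⟨s33h_mem_rr_of_pow_mem hp h1, s33h_mem_rr_of_pow_mem hp h2, hreg, ?_⟩
  rw [s33nEv_pow N hreg] at he
  exact s33h_subalgebra_root p N.Δ he

end Nod

end Fermat.Agent.S33
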