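/-
GAMMA (helper1): the ABSTRACT half of the **BRIDGE** (= (X3) of the RED/BRIDGE plan).

`d : T2Base K F k (F₁ × F₂)` a two-valuation base whose residue ring is the product of the function
fields of the two components of the abstract nodal curve `N` (`Lib/S33/Nod/Defs.lean`), `char k = p`.
Let `X` be a divisor with `p • X = div w`, `w` a Gauss unit with `res w = 1` (a point of `V^♭`).
If the reduction of `L(p • A)` lies in the nodal space `s33nL N (p • A₁) (p • A₂)` (dictionary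
`(X1)`, inclusion only), then the reduction of `L(A - X)` lies in `s33nL N A₁ A₂`:
for `s ∈ L(A - X) ∩ 𝒪`, `s ^ p / w ∈ L(p • A) ∩ 𝒪` has residue `(res s) ^ p`; apply ROOT.

* `s33h_bridge_le`  : `resBall L(A - X) ≤ s33nL N A₁ A₂`;
* `s33h_bridge_eq`  : if moreover `resBall L(A) = s33nL N A₁ A₂`, `deg X = 0`, `deg A ≥ 2g - 1`:
  `resBall L(A - X) = resBall L(A)`;
* `s33h_eq_span_one`, `s33h_hone`, `s33h_bridge_E0` : the divisor `E0` with `ℓ̄(Ē0) = 1`:
  `resBall L(E0) ⊆ k`, `resBall L(E0 - X) ≤ resBall L(E0)`.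
-/
import Mathlib
import Fermat.Agent.Lib.S33.Chart.Root
import Fermat.Agent.Lib.T2.Core.Base

set_option autoImplicit false
set_option linter.unusedSectionVars false

namespace Fermat.Agent.S33

open Module Fermat.Agent.Curve Fermat.Agent.CurveP AlgebraicCurve PlaceAux RRAux Fermat.Agent.Alpha
  Fermat.Agent.S33N Fermat.Agent.T2

variable {K F k F₁ F₂ σ₁ σ₂ : Type*} [Field K] [Field F] [Algebra K F] [Field k] [Field F₁]
  [Field F₂] [Algebra k F₁] [Algebra k F₂] [IsAlgClosed k] (N : S33nDatum k F₁ F₂ σ₁ σ₂)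
  (d : T2Base K F k (F₁ × F₂))
  {x₁ : F₁} {x₂ : F₂} (hx₁ : IsFunctionFieldGen k F₁ x₁) (hx₂ : IsFunctionFieldGen k F₂ x₂)

include hx₁ hx₂ in
/-- **BRIDGE, inclusion**: twisting by a divisor `X` with `p • X = div w`, `res w = 1`, does not
leave the nodal space. -/
theorem s33h_bridge_le [Finite σ₁] [Finite σ₂] (p : ℕ) [ExpChar k p] (A X : Divisor K F)
    (A₁ : Divisor k F₁) (A₂ : Divisor k F₂)
    (hdict : d.resBall (riemannRochSpace (p • A)) ≤ s33nL N (p • A₁) (p • A₂))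
    (w : F) (hw0 : w ≠ 0) (hdiv : ∀ P : Place K F, P.ord w = (p • X) P)
    (hwO : w ∈ d.Ov) (hwinv : w⁻¹ ∈ d.Ov) (hres : d.res ⟨w, hwO⟩ = 1) :
    d.resBall (riemannRochSpace (A - X)) ≤ s33nL N A₁ A₂ := by
  rintro t ⟨s, hs, rfl⟩
  apply s33h_root N hx₁ hx₂ p
  apply hdict
  have hsO : s ∈ d.Ov := hs.2
  have huO : s ^ p * w⁻¹ ∈ d.Ov := d.Ov.mul_mem (d.Ov.pow_mem hsO p) hwinv
  have huL : s ^ p * w⁻¹ ∈ riemannRochSpace (p • A) := by
    rw [mem_riemannRochSpace_iff]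
    intro P
    by_cases hs0 : s = 0
    · left
      have hp : 0 < p := expChar_pos k p
      rw [hs0, zero_pow hp.ne', zero_mul]
    · right
      have hsp : s ^ p ≠ 0 := pow_ne_zero p hs0
      have hwi : w⁻¹ ≠ 0 := inv_ne_zero hw0
      have hpow : P.ord (s ^ p) = p * P.ord s := by rw [← zpow_natCast, P.ord_zpow]
      rw [P.ord_mul hsp hwi, P.ord_inv, hdiv P, hpow, Finsupp.smul_apply, Finsupp.smul_apply,
        nsmul_eq_mul, nsmul_eq_mul]
      rcases (mem_riemannRochSpace_iff.mp hs.1) P with h | h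
      · exact absurd h hs0
      · rw [Finsupp.sub_apply] at h
        have hp' : (0 : ℤ) ≤ p := Int.natCast_nonneg p
        have := mul_le_mul_of_nonneg_left h hp'
        nlinarith
  refine ⟨s ^ p * w⁻¹, ⟨huL, huO⟩, ?_⟩
  -- the residue
  have h1 : (⟨s ^ p * w⁻¹, huO⟩ : ↥d.Ov) = ⟨s, hsO⟩ ^ p * ⟨w⁻¹, hwinv⟩ := rfl
  have h2 : d.res ⟨w⁻¹, hwinv⟩ = 1 := by
    have h3 : (⟨w, hwO⟩ : ↥d.Ov) * ⟨w⁻¹, hwinv⟩ = 1 := Subtype.ext (mul_inv_cancel₀ hw0)
    have h4 := congrArg d.res h3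
    rwa [map_mul, hres, one_mul, map_one] at h4
  rw [h1, map_mul, map_pow, h2, mul_one]

variable [IsAlgClosed K] {x : F} (hx : IsFunctionFieldGen K F x)
  [Algebra.IsSeparable (IntermediateField.adjoin K {x}) F]

include hx₁ hx₂ hx in
/-- **BRIDGE, equality**: if `resBall L(A) = s33nL N A₁ A₂`, `deg X = 0` and `deg A ≥ 2g - 1`, then
`resBall L(A - X) = resBall L(A)`. -/
theorem s33h_bridge_eq [Finite σ₁] [Finite σ₂] (p : ℕ) [ExpChar k p] (A X : Divisor K F)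
    (A₁ : Divisor k F₁) (A₂ : Divisor k F₂)
    (hdict : d.resBall (riemannRochSpace (p • A)) ≤ s33nL N (p • A₁) (p • A₂))
    (hdictA : s33nL N A₁ A₂ ≤ d.resBall (riemannRochSpace A))
    (hdeg : 2 * (genusR K F : ℤ) - 1 ≤ Divisor.degree A) (hX : Divisor.degree X = 0)
    (w : F) (hw0 : w ≠ 0) (hdiv : ∀ P : Place K F, P.ord w = (p • X) P)
    (hwO : w ∈ d.Ov) (hwinv : w⁻¹ ∈ d.Ov) (hres : d.res ⟨w, hwO⟩ = 1) :
    d.resBall (riemannRochSpace (A - X)) = d.resBall (riemannRochSpace A) := by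
  have hle : d.resBall (riemannRochSpace (A - X)) ≤ d.resBall (riemannRochSpace A) :=
    (s33h_bridge_le N d hx₁ hx₂ p A X A₁ A₂ hdict w hw0 hdiv hwO hwinv hres).trans hdictA
  have hf1 := finiteDimensional_riemannRochSpace hx (A - X)
  have hf2 := finiteDimensional_riemannRochSpace hx A
  have hf3 := d.finiteDimensional_resBall (riemannRochSpace A)
  apply Submodule.eq_of_le_of_finrank_eq hle
  rw [d.finrank_resBall, d.finrank_resBall]
  have e1 := alpk_ell_eq hx (A := A - X) (by rw [map_sub, hX, sub_zero]; exact hdeg)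
  have e2 := alpk_ell_eq hx (A := A) hdeg
  rw [map_sub, hX, sub_zero] at e1
  have : (ell (A - X) : ℤ) = ell A := by rw [e1, e2]
  exact_mod_cast this

omit [IsAlgClosed K] in
/-- a nodal space of dimension one of an effective divisor consists of the constants. -/
theorem s33h_eq_span_one {E₁ : Divisor k F₁} {E₂ : Divisor k F₂} (hE₁ : 0 ≤ E₁) (hE₂ : 0 ≤ E₂)
    (hell : finrank k ↥(s33nL N E₁ E₂) = 1) :
    s33nL N E₁ E₂ = Submodule.span k {(1 : F₁ × F₂)} := by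
  have h1 : (1 : F₁ × F₂) ∈ s33nL N E₁ E₂ := s33nL_mono N hE₁ hE₂ (s33n_one_mem N)
  obtain ⟨v, hv0, hv⟩ := finrank_eq_one_iff'.mp hell
  obtain ⟨c₁, hc₁⟩ := hv ⟨1, h1⟩
  have hc₁0 : c₁ ≠ 0 := by
    rintro rfl
    rw [zero_smul] at hc₁
    have := congrArg Subtype.val hc₁
    exact zero_ne_one this
  apply le_antisymm
  · intro t ht
    obtain ⟨c, hc⟩ := hv ⟨t, ht⟩
    rw [Submodule.mem_span_singleton]
    refine ⟨c * c₁⁻¹, ?_⟩
    have e1 : (v : F₁ × F₂) = c₁⁻¹ • (1 : F₁ × F₂) := by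
      have := congrArg Subtype.val hc₁
      simp only [Submodule.coe_smul] at this
      rw [← this, smul_smul, inv_mul_cancel₀ hc₁0, one_smul]
    have e2 : t = c • (v : F₁ × F₂) := by
      have := congrArg Subtype.val hc
      simp only [Submodule.coe_smul] at this
      exact this.symm
    rw [e2, e1, smul_smul]
  · rw [Submodule.span_singleton_le_iff_mem]
    exact h1

omit [IsAlgClosed K] in
/-- **`hone`**: the reduction of `L(E0)` consists of constants when `ℓ̄(Ē0) = 1`. -/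
theorem s33h_hone {E0 : Divisor K F} {E₁ : Divisor k F₁} {E₂ : Divisor k F₂} (hE₁ : 0 ≤ E₁)
    (hE₂ : 0 ≤ E₂) (hell : finrank k ↥(s33nL N E₁ E₂) = 1)
    (hdictE : d.resBall (riemannRochSpace E0) ≤ s33nL N E₁ E₂) :
    ∀ t ∈ d.resBall (riemannRochSpace E0), ∃ a : k, t = algebraMap k (F₁ × F₂) a := by
  intro t ht
  have := hdictE ht
  rw [s33h_eq_span_one N hE₁ hE₂ hell, Submodule.mem_span_singleton] at this
  obtain ⟨a, ha⟩ := this
  exact ⟨a, by rw [← ha, Algebra.algebraMap_eq_smul_one]⟩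

include hx₁ hx₂ in
omit [IsAlgClosed K] in
/-- **BRIDGE for `E0`**: `resBall L(E0 - X) ≤ resBall L(E0)` when `ℓ̄(Ē0) = 1`. -/
theorem s33h_bridge_E0 [Finite σ₁] [Finite σ₂] (p : ℕ) [ExpChar k p] {E0 : Divisor K F}
    (hE0 : 0 ≤ E0) (X : Divisor K F) {E₁ : Divisor k F₁} {E₂ : Divisor k F₂} (hE₁ : 0 ≤ E₁)
    (hE₂ : 0 ≤ E₂) (hell : finrank k ↥(s33nL N E₁ E₂) = 1)
    (hdict : d.resBall (riemannRochSpace (p • E0)) ≤ s33nL N (p • E₁) (p • E₂))
    (w : F) (hw0 : w ≠ 0) (hdiv : ∀ P : Place K F, P.ord w = (p • X) P)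
    (hwO : w ∈ d.Ov) (hwinv : w⁻¹ ∈ d.Ov) (hres : d.res ⟨w, hwO⟩ = 1) :
    d.resBall (riemannRochSpace (E0 - X)) ≤ d.resBall (riemannRochSpace E0) := by
  refine (s33h_bridge_le N d hx₁ hx₂ p E0 X E₁ E₂ hdict w hw0 hdiv hwO hwinv hres).trans ?_
  rw [s33h_eq_span_one N hE₁ hE₂ hell, Submodule.span_singleton_le_iff_mem]
  refine ⟨1, ⟨?_, d.Ov.one_mem⟩, map_one d.res⟩
  rw [mem_riemannRochSpace_iff]
  intro P
  right
  rw [P.ord_one]
  have := hE0 P
  rw [Finsupp.zero_apply] at this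
  omega

end Fermat.Agent.S33
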