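/-
GAMMA-CHART-NOD (helper1), part 2: the generic divisor `Ē0` on the abstract nodal curve of
`Lib/S33/Nod/Defs.lean` (helper3 / helper9: two components, node places, gluing algebra `Δ`).

* `s33hDiv E`          : an effective divisor `E : Place k F →₀ ℕ` as a `Divisor k F`;
* `s33h_calc`          : `(E₁, E₂) ↦ s33nL N E₁ E₂` is an `S33hCalc`;
* `s33h_finrank_zero`  : connectedness `⇒ finrank (s33nL N 0 0) = 1`;
* `s33h_pa_nonneg`     : connectedness `⇒ 0 ≤ p_a`;
* `s33h_exists_generic`: (nodal Riemann–Roch in large multidegree as a hypothesis) for finite sets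
  `S₁, S₂` of places there are effective multiplicity-free `E₁, E₂` off `S_i` and off the nodes,
  `deg E₁ + deg E₂ = p_a`, `finrank (s33nL N E₁ E₂) = 1`.
-/
import Mathlib
import Fermat.Agent.Lib.S33.Chart.Abs
import Fermat.Agent.Lib.S33.Nod.Defs
import Fermat.Agent.Lib.Alpha.Chart.Generic

set_option autoImplicit false
set_option linter.unusedSectionVars false

namespace Fermat.Agent.S33

open Module Fermat.Agent.Curve Fermat.Agent.CurveP AlgebraicCurve PlaceAux RRAux Fermat.Agent.Alpha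
  Fermat.Agent.S33N

/-! ### effective divisors with natural coefficients -/

section Div

variable {k F : Type*} [Field k] [Field F] [Algebra k F]

/-- an effective divisor with natural coefficients, as a divisor. -/
noncomputable def s33hDiv : (Place k F →₀ ℕ) →+ Divisor k F :=
  Finsupp.mapRange.addMonoidHom (Nat.castAddMonoidHom ℤ)

theorem s33hDiv_apply (E : Place k F →₀ ℕ) (v : Place k F) : s33hDiv E v = (E v : ℤ) := rfl

theorem s33hDiv_nonneg (E : Place k F →₀ ℕ) : 0 ≤ s33hDiv E := by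
  intro v
  rw [s33hDiv_apply, Finsupp.zero_apply]
  exact Int.natCast_nonneg _

theorem s33hDiv_mono {E E' : Place k F →₀ ℕ} (h : E ≤ E') : s33hDiv E ≤ s33hDiv E' := by
  intro v
  rw [s33hDiv_apply, s33hDiv_apply]
  exact_mod_cast h v

theorem s33hDiv_inf (E E' : Place k F →₀ ℕ) : s33hDiv (E ⊓ E') = s33hDiv E ⊓ s33hDiv E' := by
  ext v
  rw [Finsupp.inf_apply, s33hDiv_apply, s33hDiv_apply, s33hDiv_apply, Finsupp.inf_apply]
  exact Nat.cast_min _ _

theorem s33hDiv_single (v : Place k F) (n : ℕ) :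
    s33hDiv (Finsupp.single v n) = Finsupp.single v (n : ℤ) := by
  ext w
  rw [s33hDiv_apply]
  by_cases hw : w = v
  · subst hw
    rw [Finsupp.single_eq_same, Finsupp.single_eq_same]
  · rw [Finsupp.single_eq_of_ne hw, Finsupp.single_eq_of_ne hw, Nat.cast_zero]

/-- `L(A) ⊓ L(B) ≤ L(A ⊓ B)`. -/
theorem s33h_riemannRochSpace_inf_le (A B : Divisor k F) :
    riemannRochSpace A ⊓ riemannRochSpace B ≤ riemannRochSpace (A ⊓ B) := by
  intro f hf
  obtain ⟨hA, hB⟩ := Submodule.mem_inf.mp hf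
  rw [mem_riemannRochSpace_iff] at hA hB ⊢
  intro w
  rcases hA w with h0 | h1
  · exact Or.inl h0
  · rcases hB w with h0 | h2
    · exact Or.inl h0
    · right
      rw [Finsupp.inf_apply]
      rcases min_choice (A w) (B w) with h | h
      · rw [h]; exact h1
      · rw [h]; exact h2

variable [IsAlgClosed k] {x : F} (hx : IsFunctionFieldGen k F x)
  [Algebra.IsSeparable (IntermediateField.adjoin k {x}) F]

include hx in
theorem s33hDiv_degree (E : Place k F →₀ ℕ) : Divisor.degree (s33hDiv E) = (E.degree : ℤ) := by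
  have h : (Divisor.degree (K := k) (F := F)).comp s33hDiv =
      (Nat.castAddMonoidHom ℤ).comp (Finsupp.degree (σ := Place k F) (R := ℕ)) := by
    apply Finsupp.addHom_ext
    intro v n
    rw [AddMonoidHom.comp_apply, AddMonoidHom.comp_apply, s33hDiv_single, alpk_degree_single hx,
      Finsupp.degree_single]
    rfl
  exact DFunLike.congr_fun h E

end Div

/-! ### the nodal calculus -/

section Nod

variable {k F₁ F₂ σ₁ σ₂ : Type*} [Field k] [Field F₁] [Field F₂] [Algebra k F₁] [Algebra k F₂]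
  [IsAlgClosed k] (N : S33nDatum k F₁ F₂ σ₁ σ₂)
  {x₁ : F₁} {x₂ : F₂} (hx₁ : IsFunctionFieldGen k F₁ x₁) (hx₂ : IsFunctionFieldGen k F₂ x₂)
  [Algebra.IsSeparable (IntermediateField.adjoin k {x₁}) F₁]
  [Algebra.IsSeparable (IntermediateField.adjoin k {x₂}) F₂]

include hx₁ hx₂ in
/-- the nodal Riemann–Roch spaces are finite-dimensional. -/
theorem s33h_finite (A₁ : Divisor k F₁) (A₂ : Divisor k F₂) :
    Module.Finite k ↥(s33nL N A₁ A₂) := by
  have h1 := finiteDimensional_riemannRochSpace hx₁ A₁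
  have h2 := finiteDimensional_riemannRochSpace hx₂ A₂
  let φ : ↥(s33nL N A₁ A₂) →ₗ[k] ↥(riemannRochSpace A₁) × ↥(riemannRochSpace A₂) :=
    LinearMap.prod
      (LinearMap.codRestrict (riemannRochSpace A₁)
        ((LinearMap.fst k F₁ F₂).comp (s33nL N A₁ A₂).subtype) (fun t => t.2.1))
      (LinearMap.codRestrict (riemannRochSpace A₂)
        ((LinearMap.snd k F₁ F₂).comp (s33nL N A₁ A₂).subtype) (fun t => t.2.2.1))
  have hφ : Function.Injective φ := by
    intro t u htu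
    have e1 : (t : F₁ × F₂).1 = (u : F₁ × F₂).1 := congrArg (fun z : ↥(riemannRochSpace A₁) × ↥(riemannRochSpace A₂) => (z.1 : F₁)) htu
    have e2 : (t : F₁ × F₂).2 = (u : F₁ × F₂).2 := congrArg (fun z : ↥(riemannRochSpace A₁) × ↥(riemannRochSpace A₂) => (z.2 : F₂)) htu
    exact Subtype.ext (Prod.ext e1 e2)
  exact Module.Finite.of_injective φ hφ

include hx₁ hx₂ in
/-- the nodal spaces of effective divisors form an abstract calculus. -/
theorem s33h_calc : S33hCalc (k := k) (V := F₁ × F₂)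
    (fun (E₁ : Place k F₁ →₀ ℕ) (E₂ : Place k F₂ →₀ ℕ) => s33nL N (s33hDiv E₁) (s33hDiv E₂)) where
  fin := fun E₁ E₂ => s33h_finite N hx₁ hx₂ _ _
  mono := fun h₁ h₂ => s33nL_mono N (s33hDiv_mono h₁) (s33hDiv_mono h₂)
  inf := by
    intro E₁ E₁' E₂ E₂' t ht
    obtain ⟨⟨h1, h2, hr, he⟩, ⟨h1', h2', -, -⟩⟩ := Submodule.mem_inf.mp ht
    refine ⟨?_, ?_, hr, he⟩
    · rw [s33hDiv_inf]
      exact s33h_riemannRochSpace_inf_le _ _ (Submodule.mem_inf.mpr ⟨h1, h1'⟩)
    · rw [s33hDiv_inf]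
      exact s33h_riemannRochSpace_inf_le _ _ (Submodule.mem_inf.mpr ⟨h2, h2'⟩)

include hx₁ hx₂ in
/-- **connectedness**: the global functions on a connected nodal curve are the constants. -/
theorem s33h_finrank_zero
    (hconn : ∀ c₁ c₂ : k, Sum.elim (fun _ : σ₁ => c₁) (fun _ : σ₂ => c₂) ∈ N.Δ → c₁ = c₂) :
    finrank k ↥(s33nL N 0 0) = 1 := by
  have hspan : s33nL N 0 0 = Submodule.span k {(1 : F₁ × F₂)} := by
    apply le_antisymm
    · rintro t ⟨h1, h2, -, he⟩
      rw [riemannRochSpace_zero hx₁] at h1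
      rw [riemannRochSpace_zero hx₂] at h2
      obtain ⟨c₁, hc₁⟩ := h1
      obtain ⟨c₂, hc₂⟩ := h2
      have hev : s33nEv N t = Sum.elim (fun _ : σ₁ => c₁) (fun _ : σ₂ => c₂) := by
        funext s
        rcases s with s | s
        · rw [s33nEv_inl, ← hc₁]
          exact s33nVal_algebraMap _ c₁
        · rw [s33nEv_inr, ← hc₂]
          exact s33nVal_algebraMap _ c₂
      rw [hev] at he
      have hc := hconn c₁ c₂ he
      rw [Submodule.mem_span_singleton]
      refine ⟨c₁, ?_⟩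
      apply Prod.ext
      · rw [Prod.smul_fst, Prod.fst_one, ← hc₁, Algebra.linearMap_apply, Algebra.smul_def, mul_one]
      · rw [Prod.smul_snd, Prod.snd_one, ← hc₂, ← hc, Algebra.linearMap_apply, Algebra.smul_def,
          mul_one]
    · rw [Submodule.span_singleton_le_iff_mem]
      exact s33n_one_mem N
  rw [hspan]
  exact finrank_span_singleton one_ne_zero

variable [Fintype σ₁] [Fintype σ₂]

/-- connectedness forces a genuine gluing condition, hence `0 ≤ p_a`. -/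
theorem s33h_pa_nonneg
    (hconn : ∀ c₁ c₂ : k, Sum.elim (fun _ : σ₁ => c₁) (fun _ : σ₂ => c₂) ∈ N.Δ → c₁ = c₂) :
    0 ≤ s33nPa N := by
  classical
  have hne : (Sum.elim (fun _ : σ₁ => (1 : k)) (fun _ : σ₂ => (0 : k))) ∉ N.Δ := by
    intro h
    exact one_ne_zero (hconn 1 0 h)
  have hlt : Subalgebra.toSubmodule N.Δ < ⊤ := by
    rw [lt_top_iff_ne_top]
    intro htop
    apply hne
    have : (Sum.elim (fun _ : σ₁ => (1 : k)) (fun _ : σ₂ => (0 : k))) ∈
        Subalgebra.toSubmodule N.Δ := by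
      rw [htop]
      exact Submodule.mem_top
    exact this
  have h1 := Submodule.finrank_lt_finrank_of_lt hlt
  rw [finrank_top, Module.finrank_fintype_fun_eq_card, Fintype.card_sum] at h1
  have h2 : finrank k ↥(Subalgebra.toSubmodule N.Δ) = finrank k ↥N.Δ := rfl
  rw [s33nPa, s33nDelta]
  have : (finrank k ↥N.Δ : ℤ) < (Fintype.card σ₁ : ℤ) + Fintype.card σ₂ := by
    rw [← h2]
    exact_mod_cast h1
  have hg1 : (0 : ℤ) ≤ genusR k F₁ := Int.natCast_nonneg _
  have hg2 : (0 : ℤ) ≤ genusR k F₂ := Int.natCast_nonneg _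
  omega

include hx₁ hx₂ in
/-- **the generic divisor on the nodal curve**: given nodal Riemann–Roch in large multidegree
(`hN1`, = (N1) of KM-NOD) and connectedness, for all finite sets `S₁`, `S₂` of places there are
effective multiplicity-free divisors `E₁`, `E₂` off `S₁`, `S₂` and off the node places, of total
degree `p_a`, with `finrank (s33nL N E₁ E₂) = 1`. -/
theorem s33h_exists_generic
    (hconn : ∀ c₁ c₂ : k, Sum.elim (fun _ : σ₁ => c₁) (fun _ : σ₂ => c₂) ∈ N.Δ → c₁ = c₂)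
    (M : ℕ)
    (hN1 : ∀ (A₁ : Divisor k F₁) (A₂ : Divisor k F₂), N.Off A₁ A₂ →
      (M : ℤ) ≤ Divisor.degree A₁ → (M : ℤ) ≤ Divisor.degree A₂ →
      (finrank k ↥(s33nL N A₁ A₂) : ℤ) = Divisor.degree A₁ + Divisor.degree A₂ + 1 - s33nPa N)
    {S₁ : Set (Place k F₁)} {S₂ : Set (Place k F₂)} (hS₁ : S₁.Finite) (hS₂ : S₂.Finite) :
    ∃ (E₁ : Divisor k F₁) (E₂ : Divisor k F₂), 0 ≤ E₁ ∧ 0 ≤ E₂ ∧ (∀ v, E₁ v ≤ 1) ∧
      (∀ v, E₂ v ≤ 1) ∧ (∀ v ∈ S₁, E₁ v = 0) ∧ (∀ v ∈ S₂, E₂ v = 0) ∧ N.Off E₁ E₂ ∧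
      Divisor.degree E₁ + Divisor.degree E₂ = s33nPa N ∧ finrank k ↥(s33nL N E₁ E₂) = 1 := by
  classical
  have hpa := s33h_pa_nonneg N hconn
  obtain ⟨pa, hpa'⟩ := Int.eq_ofNat_of_zero_le hpa
  have hinf₁ : Infinite (Place k F₁) := alpg_infinite_place hx₁
  have hinf₂ : Infinite (Place k F₂) := alpg_infinite_place hx₂
  have hT₁ : (S₁ ∪ Set.range N.P₁).Finite := hS₁.union (Set.finite_range _)
  have hT₂ : (S₂ ∪ Set.range N.P₂).Finite := hS₂.union (Set.finite_range _)
  obtain ⟨E₁, E₂, hE₁, hE₂, hm₁, hm₂, hdeg, hell⟩ :=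
    s33h_abs_exists_generic (s33h_calc N hx₁ hx₂) pa M hT₁ hT₂
      (by
        intro E₁ E₂ hE₁ hE₂ hM₁ hM₂
        have hoff : N.Off (s33hDiv E₁) (s33hDiv E₂) := by
          refine ⟨fun s => ?_, fun s => ?_⟩
          · rw [s33hDiv_apply, hE₁ _ (Or.inr ⟨s, rfl⟩), Nat.cast_zero]
          · rw [s33hDiv_apply, hE₂ _ (Or.inr ⟨s, rfl⟩), Nat.cast_zero]
        have h := hN1 _ _ hoff (by rw [s33hDiv_degree hx₁]; exact_mod_cast hM₁)
          (by rw [s33hDiv_degree hx₂]; exact_mod_cast hM₂)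
        rw [s33hDiv_degree hx₁, s33hDiv_degree hx₂, hpa'] at h
        have : ((finrank k ↥(s33nL N (s33hDiv E₁) (s33hDiv E₂)) + pa : ℕ) : ℤ) =
            ((E₁.degree + E₂.degree + 1 : ℕ) : ℤ) := by
          push_cast
          omega
        exact le_of_eq (by exact_mod_cast this))
      (by
        show finrank k ↥(s33nL N (s33hDiv 0) (s33hDiv 0)) = 1
        rw [map_zero, map_zero]
        exact s33h_finrank_zero N hx₁ hx₂ hconn)
  refine ⟨s33hDiv E₁, s33hDiv E₂, s33hDiv_nonneg _, s33hDiv_nonneg _, ?_, ?_, ?_, ?_, ?_, ?_, hell⟩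
  · intro v
    rw [s33hDiv_apply]
    exact_mod_cast hm₁ v
  · intro v
    rw [s33hDiv_apply]
    exact_mod_cast hm₂ v
  · intro v hv
    rw [s33hDiv_apply, hE₁ v (Or.inl hv), Nat.cast_zero]
  · intro v hv
    rw [s33hDiv_apply, hE₂ v (Or.inl hv), Nat.cast_zero]
  · refine ⟨fun s => ?_, fun s => ?_⟩
    · rw [s33hDiv_apply, hE₁ _ (Or.inr ⟨s, rfl⟩), Nat.cast_zero]
    · rw [s33hDiv_apply, hE₂ _ (Or.inr ⟨s, rfl⟩), Nat.cast_zero]
  · rw [s33hDiv_degree hx₁, s33hDiv_degree hx₂, hpa', ← hdeg]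
    push_cast
    ring

end Nod

end Fermat.Agent.S33
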