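/-
GAMMA-CF (helper1): the **closed-fibre adapter**.

`d : T2Base K F k (F₁ × F₂)`, `N` the abstract nodal curve (`Lib/S33/Nod/Defs.lean`).  From the
RED dictionary (as hypotheses: `d.resBall L(B - E0) = s33nL N (B₁ - E₁) (B₂ - E₂)` etc.), helper3's
nodal calculus (N1)–(N3), (U) (`Lib/S33/Nod/{Dim,Mul,Colon}.lean`) and `ℓ̄(Ē0) = 1`
(`s33h_exists_generic`) we produce LITERALLY the closed-fibre fields `hKprod`, `hKhom`, `hKcol`,
`hKunit` of helper8's `S33xChart` (`Lib/S33/Key/ChartN.lean`) and the hypothesis `hone` of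
`s33x_exists_points` / `s33w_model_of_data`.

* `s33h_exists_generic'` : `s33h_exists_generic` with (N1) discharged;
* `s33h_hKprod`, `s33h_hKhom`, `s33h_hKcol`, `s33h_hKunit`, `s33h_closed` (all at once);
* `s33h_numerics` : if `finrank (s33nL N (a • I₁) (a • I₂)) = n * a + c` for all large `a`
  then `n = deg I₁ + deg I₂` and `c = 1 - p_a` (flatness ⇒ `p_a = g`).
-/
import Mathlib
import Fermat.Agent.Lib.S33.Chart.Nod
import Fermat.Agent.Lib.S33.Chart.Bridge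
import Fermat.Agent.Lib.S33.Nod.Colon
import Fermat.Agent.Lib.S33.Nod.Mul

set_option autoImplicit false
set_option linter.unusedSectionVars false

namespace Fermat.Agent.S33

open Module Fermat.Agent.Curve Fermat.Agent.CurveP AlgebraicCurve PlaceAux RRAux Fermat.Agent.Alpha
  Fermat.Agent.S33N Fermat.Agent.T2

variable {k F₁ F₂ σ₁ σ₂ : Type*} [Field k] [Field F₁] [Field F₂] [Algebra k F₁] [Algebra k F₂]
  [IsAlgClosed k] [Fintype σ₁] [Fintype σ₂]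
  {x₁ : F₁} {x₂ : F₂} (hx₁ : IsFunctionFieldGen k F₁ x₁) (hx₂ : IsFunctionFieldGen k F₂ x₂)
  [Algebra.IsSeparable (IntermediateField.adjoin k {x₁}) F₁]
  [Algebra.IsSeparable (IntermediateField.adjoin k {x₂}) F₂]
  (N : S33nDatum k F₁ F₂ σ₁ σ₂)

include hx₁ hx₂ in
/-- **the generic divisor on the nodal curve** (no hypothesis besides connectedness): for finite
sets `S₁`, `S₂` of places there are effective multiplicity-free `E₁`, `E₂` off `S₁`, `S₂` and off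
the nodes, of total degree `p_a`, with `finrank (s33nL N E₁ E₂) = 1`. -/
theorem s33h_exists_generic'
    (hconn : ∀ c₁ c₂ : k, Sum.elim (fun _ : σ₁ => c₁) (fun _ : σ₂ => c₂) ∈ N.Δ → c₁ = c₂)
    {S₁ : Set (Place k F₁)} {S₂ : Set (Place k F₂)} (hS₁ : S₁.Finite) (hS₂ : S₂.Finite) :
    ∃ (E₁ : Divisor k F₁) (E₂ : Divisor k F₂), 0 ≤ E₁ ∧ 0 ≤ E₂ ∧ (∀ v, E₁ v ≤ 1) ∧
      (∀ v, E₂ v ≤ 1) ∧ (∀ v ∈ S₁, E₁ v = 0) ∧ (∀ v ∈ S₂, E₂ v = 0) ∧ N.Off E₁ E₂ ∧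
      Divisor.degree E₁ + Divisor.degree E₂ = s33nPa N ∧ finrank k ↥(s33nL N E₁ E₂) = 1 := by
  refine s33h_exists_generic N hx₁ hx₂ hconn
    (2 * genusR k F₁ + Fintype.card σ₁ + 2 * genusR k F₂ + Fintype.card σ₂) ?_ hS₁ hS₂
  intro A₁ A₂ hoff h₁ h₂
  push_cast at h₁ h₂
  have hg₁ : (0 : ℤ) ≤ genusR k F₁ := Int.natCast_nonneg _
  have hg₂ : (0 : ℤ) ≤ genusR k F₂ := Int.natCast_nonneg _
  have hc₁ : (0 : ℤ) ≤ Fintype.card σ₁ := Int.natCast_nonneg _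
  have hc₂ : (0 : ℤ) ≤ Fintype.card σ₂ := Int.natCast_nonneg _
  exact s33n_finrank hx₁ hx₂ N hoff (by omega) (by omega)

include hx₁ hx₂ in
/-- **numerics**: a linear Hilbert function of the multiples of a positive divisor off the nodes
determines its degree and the arithmetic genus. -/
theorem s33h_numerics {I₁ : Divisor k F₁} {I₂ : Divisor k F₂} (hoff : N.Off I₁ I₂)
    (hI₁ : 0 < Divisor.degree I₁) (hI₂ : 0 < Divisor.degree I₂) (n c : ℤ) (a0 : ℕ)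
    (h : ∀ a : ℕ, a0 ≤ a → (finrank k ↥(s33nL N (a • I₁) (a • I₂)) : ℤ) = n * a + c) :
    n = Divisor.degree I₁ + Divisor.degree I₂ ∧ c = 1 - s33nPa N := by
  have hg₁ : (0 : ℤ) ≤ genusR k F₁ := Int.natCast_nonneg _
  have hg₂ : (0 : ℤ) ≤ genusR k F₂ := Int.natCast_nonneg _
  have hc₁ : (0 : ℤ) ≤ Fintype.card σ₁ := Int.natCast_nonneg _
  have hc₂ : (0 : ℤ) ≤ Fintype.card σ₂ := Int.natCast_nonneg _
  set b : ℕ := a0 + (2 * genusR k F₁ + Fintype.card σ₁ + 2 * genusR k F₂ + Fintype.card σ₂)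
    with hb
  have hoffa : ∀ a : ℕ, N.Off (a • I₁) (a • I₂) := fun a =>
    ⟨fun s => by rw [Finsupp.smul_apply, hoff.1 s, smul_zero],
      fun s => by rw [Finsupp.smul_apply, hoff.2 s, smul_zero]⟩
  have key : ∀ a : ℕ, b ≤ a → (n * a + c : ℤ) =
      a * Divisor.degree I₁ + a * Divisor.degree I₂ + 1 - s33nPa N := by
    intro a ha
    have hab : ((2 * genusR k F₁ + Fintype.card σ₁ + 2 * genusR k F₂ + Fintype.card σ₂ : ℕ) : ℤ)
        ≤ a := by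
      have : 2 * genusR k F₁ + Fintype.card σ₁ + 2 * genusR k F₂ + Fintype.card σ₂ ≤ a := by
        omega
      exact_mod_cast this
    push_cast at hab
    have ha' : (0 : ℤ) ≤ a := Int.natCast_nonneg _
    have h1 := s33n_finrank hx₁ hx₂ N (hoffa a)
      (by
        rw [map_nsmul, nsmul_eq_mul]
        nlinarith)
      (by
        rw [map_nsmul, nsmul_eq_mul]
        nlinarith)
    rw [h a (by omega), map_nsmul, map_nsmul, nsmul_eq_mul, nsmul_eq_mul] at h1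
    exact h1
  have k1 := key b le_rfl
  have k2 := key (b + 1) (by omega)
  push_cast at k1 k2
  constructor
  · linarith
  · have hn : n = Divisor.degree I₁ + Divisor.degree I₂ := by linarith
    rw [hn] at k1
    linarith

section Base

variable {K F : Type*} [Field K] [Field F] [Algebra K F] (d : T2Base K F k (F₁ × F₂))
  {B E0 : Divisor K F} {B₁ E₁ : Divisor k F₁} {B₂ E₂ : Divisor k F₂}

include hx₁ hx₂ in
/-- **(KM-prod)** in the literal form of `S33xChart.hKprod`. -/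
theorem s33h_hKprod (hBoff : N.Off B₁ B₂) (hEoff : N.Off E₁ E₂)
    (hdeg₁ : 4 * (genusR k F₁ : ℤ) + 2 * Fintype.card σ₁ ≤ Divisor.degree B₁ - Divisor.degree E₁)
    (hdeg₂ : 4 * (genusR k F₂ : ℤ) + 2 * Fintype.card σ₂ ≤ Divisor.degree B₂ - Divisor.degree E₂)
    (hX : s33nL N (B₁ - E₁) (B₂ - E₂) ≤ d.resBall (riemannRochSpace (B - E0)))
    (hXX : d.resBall (riemannRochSpace (B + B - E0 - E0)) ≤
      s33nL N (B₁ + B₁ - E₁ - E₁) (B₂ + B₂ - E₂ - E₂)) :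
    d.resBall (riemannRochSpace (B + B - E0 - E0)) ≤
      d.resBall (riemannRochSpace (B - E0)) * d.resBall (riemannRochSpace (B - E0)) := by
  have hg₁ : (0 : ℤ) ≤ genusR k F₁ := Int.natCast_nonneg _
  have hg₂ : (0 : ℤ) ≤ genusR k F₂ := Int.natCast_nonneg _
  have hc₁ : (0 : ℤ) ≤ Fintype.card σ₁ := Int.natCast_nonneg _
  have hc₂ : (0 : ℤ) ≤ Fintype.card σ₂ := Int.natCast_nonneg _
  have hoff := hBoff.sub N hEoff
  have hmul := s33n_mul_eq hx₁ hx₂ N hoff hoff (by rw [map_sub]; exact hdeg₁)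
    (by rw [map_sub]; exact hdeg₂) (by rw [map_sub]; omega) (by rw [map_sub]; omega)
  have e₁ : B₁ - E₁ + (B₁ - E₁) = B₁ + B₁ - E₁ - E₁ := by abel
  have e₂ : B₂ - E₂ + (B₂ - E₂) = B₂ + B₂ - E₂ - E₂ := by abel
  rw [e₁, e₂] at hmul
  refine hXX.trans ?_
  rw [← hmul]
  exact Submodule.mul_le.mpr fun a ha b hb => Submodule.mul_mem_mul (hX ha) (hX hb)

include hx₁ hx₂ in
/-- **(KM-hom)** in the literal form of `S33xChart.hKhom`. -/
theorem s33h_hKhom (hBoff : N.Off B₁ B₂) (hEoff : N.Off E₁ E₂) (hE₁ : 0 ≤ E₁) (hE₂ : 0 ≤ E₂)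
    (hell : finrank k ↥(s33nL N E₁ E₂) = 1)
    (hdeg₁ : 4 * (genusR k F₁ : ℤ) + 2 * Fintype.card σ₁ ≤ Divisor.degree B₁ - Divisor.degree E₁)
    (hdeg₂ : 4 * (genusR k F₂ : ℤ) + 2 * Fintype.card σ₂ ≤ Divisor.degree B₂ - Divisor.degree E₂)
    (hXX : s33nL N (B₁ + B₁ - E₁ - E₁) (B₂ + B₂ - E₂ - E₂) ≤
      d.resBall (riemannRochSpace (B + B - E0 - E0)))
    (hZ : d.resBall (riemannRochSpace (B + B - E0)) ≤ s33nL N (B₁ + B₁ - E₁) (B₂ + B₂ - E₂)) :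
    ∀ h : F₁ × F₂, (∀ t ∈ d.resBall (riemannRochSpace (B + B - E0 - E0)),
      h * t ∈ d.resBall (riemannRochSpace (B + B - E0))) →
      ∃ a : k, h = algebraMap k (F₁ × F₂) a := by
  intro h hh
  have hg₁ : (0 : ℤ) ≤ genusR k F₁ := Int.natCast_nonneg _
  have hg₂ : (0 : ℤ) ≤ genusR k F₂ := Int.natCast_nonneg _
  have hc₁ : (0 : ℤ) ≤ Fintype.card σ₁ := Int.natCast_nonneg _
  have hc₂ : (0 : ℤ) ≤ Fintype.card σ₂ := Int.natCast_nonneg _
  have hoffA : N.Off (B₁ + B₁ - E₁ - E₁) (B₂ + B₂ - E₂ - E₂) :=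
    ((hBoff.add N hBoff).sub N hEoff).sub N hEoff
  have hoffB : N.Off (B₁ + B₁ - E₁) (B₂ + B₂ - E₂) := (hBoff.add N hBoff).sub N hEoff
  have e₁ : B₁ + B₁ - E₁ - (B₁ + B₁ - E₁ - E₁) = E₁ := by abel
  have e₂ : B₂ + B₂ - E₂ - (B₂ + B₂ - E₂ - E₂) = E₂ := by abel
  refine s33n_homker hx₁ hx₂ N hoffA hoffB ?_ ?_ (by rw [e₁]; exact hE₁) (by rw [e₂]; exact hE₂)
    (by rw [e₁, e₂]; exact hell) h (fun t ht => hZ (hh t (hXX ht)))
  · rw [map_sub, map_sub, map_add]; omega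
  · rw [map_sub, map_sub, map_add]; omega

include hx₁ hx₂ in
/-- **(KM-col)** in the literal form of `S33xChart.hKcol`. -/
theorem s33h_hKcol (hBoff : N.Off B₁ B₂) (hEoff : N.Off E₁ E₂)
    (hdeg₁ : 4 * (genusR k F₁ : ℤ) + 2 * Fintype.card σ₁ ≤ Divisor.degree B₁ - Divisor.degree E₁)
    (hdeg₂ : 4 * (genusR k F₂ : ℤ) + 2 * Fintype.card σ₂ ≤ Divisor.degree B₂ - Divisor.degree E₂)
    (hX : d.resBall (riemannRochSpace (B - E0)) = s33nL N (B₁ - E₁) (B₂ - E₂))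
    (hXX : d.resBall (riemannRochSpace (B + B - E0 - E0)) ≤
      s33nL N (B₁ + B₁ - E₁ - E₁) (B₂ + B₂ - E₂ - E₂)) :
    ∀ u ∈ d.resBall (riemannRochSpace B),
      (∀ b ∈ d.resBall (riemannRochSpace (B - E0)),
        u * b ∈ d.resBall (riemannRochSpace (B + B - E0 - E0))) →
      u ∈ d.resBall (riemannRochSpace (B - E0)) := by
  intro u _ hu
  have hg₁ : (0 : ℤ) ≤ genusR k F₁ := Int.natCast_nonneg _
  have hg₂ : (0 : ℤ) ≤ genusR k F₂ := Int.natCast_nonneg _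
  have hc₁ : (0 : ℤ) ≤ Fintype.card σ₁ := Int.natCast_nonneg _
  have hc₂ : (0 : ℤ) ≤ Fintype.card σ₂ := Int.natCast_nonneg _
  have hoffA : N.Off (B₁ - E₁) (B₂ - E₂) := hBoff.sub N hEoff
  have hoffB : N.Off (B₁ + B₁ - E₁ - E₁) (B₂ + B₂ - E₂ - E₂) :=
    ((hBoff.add N hBoff).sub N hEoff).sub N hEoff
  have e₁ : B₁ + B₁ - E₁ - E₁ - (B₁ - E₁) = B₁ - E₁ := by abel
  have e₂ : B₂ + B₂ - E₂ - E₂ - (B₂ - E₂) = B₂ - E₂ := by abel
  have := (s33n_colon hx₁ hx₂ N hoffA hoffB (by rw [map_sub]; omega) (by rw [map_sub]; omega)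
    u).mp (fun t ht => hXX (hu t (by rw [hX]; exact ht)))
  rw [e₁, e₂] at this
  rw [hX]
  exact this

include hx₁ hx₂ in
/-- **(KM-unit)** in the literal form of `S33xChart.hKunit`. -/
theorem s33h_hKunit
    (hconn : ∀ c₁ c₂ : k, Sum.elim (fun _ : σ₁ => c₁) (fun _ : σ₂ => c₂) ∈ N.Δ → c₁ = c₂)
    (hBoff : N.Off B₁ B₂) (hEoff : N.Off E₁ E₂)
    (hdeg₁ : 4 * (genusR k F₁ : ℤ) + 2 * Fintype.card σ₁ ≤ Divisor.degree B₁ - Divisor.degree E₁)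
    (hdeg₂ : 4 * (genusR k F₂ : ℤ) + 2 * Fintype.card σ₂ ≤ Divisor.degree B₂ - Divisor.degree E₂)
    (hX : d.resBall (riemannRochSpace (B - E0)) = s33nL N (B₁ - E₁) (B₂ - E₂)) :
    ∀ {ι : Type} (f : ι → F₁ × F₂),
      Submodule.span k (Set.range f) = d.resBall (riemannRochSpace (B - E0)) →
      ∃ j, IsUnit (f j) := by
  intro ι f hf
  have hg₁ : (0 : ℤ) ≤ genusR k F₁ := Int.natCast_nonneg _
  have hg₂ : (0 : ℤ) ≤ genusR k F₂ := Int.natCast_nonneg _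
  have hc₁ : (0 : ℤ) ≤ Fintype.card σ₁ := Int.natCast_nonneg _
  have hc₂ : (0 : ℤ) ≤ Fintype.card σ₂ := Int.natCast_nonneg _
  exact s33n_exists_unit hx₁ hx₂ N hconn (hBoff.sub N hEoff) (by rw [map_sub]; omega)
    (by rw [map_sub]; omega) f (by rw [hf, hX])

include hx₁ hx₂ in
/-- **the closed-fibre package**: all closed-fibre KM fields of `S33xChart` and `hone`, from the
RED dictionary, the nodal calculus and `ℓ̄(Ē0) = 1`. -/
theorem s33h_closed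
    (hconn : ∀ c₁ c₂ : k, Sum.elim (fun _ : σ₁ => c₁) (fun _ : σ₂ => c₂) ∈ N.Δ → c₁ = c₂)
    (hBoff : N.Off B₁ B₂) (hEoff : N.Off E₁ E₂) (hE₁ : 0 ≤ E₁) (hE₂ : 0 ≤ E₂)
    (hell : finrank k ↥(s33nL N E₁ E₂) = 1)
    (hdeg₁ : 4 * (genusR k F₁ : ℤ) + 2 * Fintype.card σ₁ ≤ Divisor.degree B₁ - Divisor.degree E₁)
    (hdeg₂ : 4 * (genusR k F₂ : ℤ) + 2 * Fintype.card σ₂ ≤ Divisor.degree B₂ - Divisor.degree E₂)
    (hX : d.resBall (riemannRochSpace (B - E0)) = s33nL N (B₁ - E₁) (B₂ - E₂))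
    (hXX : d.resBall (riemannRochSpace (B + B - E0 - E0)) =
      s33nL N (B₁ + B₁ - E₁ - E₁) (B₂ + B₂ - E₂ - E₂))
    (hZ : d.resBall (riemannRochSpace (B + B - E0)) ≤ s33nL N (B₁ + B₁ - E₁) (B₂ + B₂ - E₂))
    (hE : d.resBall (riemannRochSpace E0) ≤ s33nL N E₁ E₂) :
    (d.resBall (riemannRochSpace (B + B - E0 - E0)) ≤
      d.resBall (riemannRochSpace (B - E0)) * d.resBall (riemannRochSpace (B - E0))) ∧
    (∀ h : F₁ × F₂, (∀ t ∈ d.resBall (riemannRochSpace (B + B - E0 - E0)),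
      h * t ∈ d.resBall (riemannRochSpace (B + B - E0))) →
      ∃ a : k, h = algebraMap k (F₁ × F₂) a) ∧
    (∀ u ∈ d.resBall (riemannRochSpace B),
      (∀ b ∈ d.resBall (riemannRochSpace (B - E0)),
        u * b ∈ d.resBall (riemannRochSpace (B + B - E0 - E0))) →
      u ∈ d.resBall (riemannRochSpace (B - E0))) ∧
    (∀ {ι : Type} (f : ι → F₁ × F₂),
      Submodule.span k (Set.range f) = d.resBall (riemannRochSpace (B - E0)) →
      ∃ j, IsUnit (f j)) ∧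
    (∀ t ∈ d.resBall (riemannRochSpace E0), ∃ a : k, t = algebraMap k (F₁ × F₂) a) :=
  ⟨s33h_hKprod hx₁ hx₂ N d hBoff hEoff hdeg₁ hdeg₂ hX.ge hXX.le,
    s33h_hKhom hx₁ hx₂ N d hBoff hEoff hE₁ hE₂ hell hdeg₁ hdeg₂ hXX.ge hZ,
    s33h_hKcol hx₁ hx₂ N d hBoff hEoff hdeg₁ hdeg₂ hX hXX.le,
    s33h_hKunit hx₁ hx₂ N d hconn hBoff hEoff hdeg₁ hdeg₂ hX,
    s33h_hone N d hE₁ hE₂ hell hE⟩

end Base

end Fermat.Agent.S33
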