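/-
GAMMA-CHART-NOD (helper1), part 3: the complement (G2) of the ONE cluster, in the literal form of
the fields `c`, `hG2a`, `hG2b` of helper8's `S33xChart` (`Lib/S33/Key/ChartN.lean`).

Pure linear algebra: `W̄ ≤ Fr.spanB` of codimension `g`; choose a complement, a basis of it,
write the basis vectors in the frame and lift the coordinates to `A` (through any subset of `A`
which surjects onto `k`, e.g. the inertia-fixed elements).

* `s33h_exists_compl_basis` : abstract version (subspaces of a `k`-module);
* `s33h_exists_complement`  : the literal form for a frame.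
-/
import Mathlib
import Fermat.Agent.Lib.S33.Key.FrameN

set_option autoImplicit false

namespace Fermat.Agent.S33

open Module Fermat.Agent.T2

/-- a subspace `W` of codimension `g` in a finite-dimensional subspace `S` has a complement in `S`
with a basis of `g` vectors. -/
theorem s33h_exists_compl_basis {k E : Type*} [Field k] [AddCommGroup E] [Module k E]
    (W S : Submodule k E) [FiniteDimensional k ↥S] (hWS : W ≤ S) {g : ℕ}
    (hdim : finrank k ↥W + g = finrank k ↥S) :
    ∃ q : Fin g → E, (∀ i, q i ∈ S) ∧ (∀ γ : Fin g → k, (∑ i, γ i • q i) ∈ W → γ = 0) ∧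
      S ≤ W ⊔ Submodule.span k (Set.range q) := by
  classical
  obtain ⟨Q', hQ'⟩ := Submodule.exists_isCompl W
  set Q : Submodule k E := Q' ⊓ S with hQ
  have hQS : Q ≤ S := inf_le_right
  have hfW : FiniteDimensional k ↥W := Submodule.finiteDimensional_of_le hWS
  have hfQ : FiniteDimensional k ↥Q := Submodule.finiteDimensional_of_le hQS
  have hinf : W ⊓ Q = ⊥ := by
    rw [hQ, ← inf_assoc, hQ'.inf_eq_bot, bot_inf_eq]
  have hsup : W ⊔ Q = S := by
    rw [hQ, ← sup_inf_assoc_of_le Q' hWS, hQ'.sup_eq_top, top_inf_eq]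
  have hQdim : finrank k ↥Q = g := by
    have h := Submodule.finrank_sup_add_finrank_inf_eq W Q
    rw [hinf, hsup, finrank_bot, add_zero] at h
    omega
  let b : Basis (Fin g) k ↥Q := Module.finBasisOfFinrankEq k ↥Q hQdim
  refine ⟨fun i => ((b i : ↥Q) : E), fun i => hQS (b i).2, ?_, ?_⟩
  · intro γ hγ
    have hq : ((∑ i, γ i • b i : ↥Q) : E) = ∑ i, γ i • ((b i : ↥Q) : E) := by
      simp only [Submodule.coe_sum, Submodule.coe_smul]
    have hmem : ((∑ i, γ i • b i : ↥Q) : E) ∈ W ⊓ Q :=
      Submodule.mem_inf.mpr ⟨by rw [hq]; exact hγ, (∑ i, γ i • b i : ↥Q).2⟩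
    rw [hinf, Submodule.mem_bot] at hmem
    have h0 : (∑ i, γ i • b i : ↥Q) = 0 := Subtype.ext hmem
    exact funext (Fintype.linearIndependent_iff.mp b.linearIndependent γ h0)
  · rw [← hsup]
    refine sup_le_sup_left ?_ W
    intro t ht
    have hspan : (⟨t, ht⟩ : ↥Q) ∈ Submodule.span k (Set.range b) := by
      rw [b.span_eq]
      exact Submodule.mem_top
    obtain ⟨γ, hγ⟩ := (Submodule.mem_span_range_iff_exists_fun k).mp hspan
    have hqv : t = ∑ i, γ i • ((b i : ↥Q) : E) := by
      have := congrArg (fun z : ↥Q => (z : E)) hγ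
      simp only [Submodule.coe_sum, Submodule.coe_smul] at this
      exact this.symm
    rw [hqv]
    exact Submodule.sum_mem _ fun i _ =>
      Submodule.smul_mem _ _ (Submodule.subset_span ⟨i, rfl⟩)

variable {K F k Fb : Type*} [Field K] [Field F] [Algebra K F] [Field k] [CommRing Fb] [Algebra k Fb]

/-- **(G2) for one cluster**: a subspace `W̄` of codimension `g` in the span of the residues of a
frame has a complement spanned by `g` vectors whose frame coordinates are residues of elements of
`A` satisfying a prescribed predicate `P` (e.g. "inertia-fixed"), provided the `P`-elements surject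
onto `k`. -/
theorem s33h_exists_complement (d : T2Base K F k Fb) {N g : ℕ} (Fr : S33xFrame d N)
    (Wb : Submodule k Fb) (hW : Wb ≤ Fr.spanB) (hdim : finrank k ↥Wb + g = N)
    (P : ↥d.A → Prop) (hP : ∀ a : k, ∃ t : ↥d.A, P t ∧ d.resA t = a) :
    ∃ c : Fin g → Fin N → ↥d.A, (∀ i s, P (c i s)) ∧
      (∀ γ : Fin g → k, (∑ i, γ i • Fr.combB (fun s => d.resA (c i s))) ∈ Wb → γ = 0) ∧
      Fr.spanB ≤ Wb ⊔ Submodule.span k (Set.range fun i => Fr.combB (fun s => d.resA (c i s))) := by
  classical
  have hspan : finrank k ↥Fr.spanB = N := by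
    have := finrank_span_eq_card Fr.eb_indep
    rw [Fintype.card_fin] at this
    exact this
  have hfinB : FiniteDimensional k ↥Fr.spanB :=
    Module.Finite.span_of_finite k (Set.finite_range _)
  obtain ⟨q, hqS, hq1, hq2⟩ := s33h_exists_compl_basis Wb Fr.spanB hW (g := g)
    (by rw [hspan]; exact hdim)
  have hcoord : ∀ i, ∃ a : Fin N → k, q i = Fr.combB a := fun i => Fr.mem_spanB_iff.mp (hqS i)
  choose a ha using hcoord
  have hlift : ∀ i s, ∃ t : ↥d.A, P t ∧ d.resA t = a i s := fun i s => hP (a i s)
  choose c hcP hc using hlift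
  have hcb : (fun i => Fr.combB (fun s => d.resA (c i s))) = q := by
    funext i
    rw [ha i]
    congr 1
    funext s
    exact hc i s
  refine ⟨c, hcP, ?_, ?_⟩
  · intro γ hγ
    apply hq1 γ
    rw [← hcb]
    exact hγ
  · rw [hcb]
    exact hq2

end Fermat.Agent.S33
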