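/-
GAMMA (helper1): **from the RED inclusions to all closed-fibre inputs of the final assembly**.

`d : T2Base K F k (F₁ × F₂)`, `N` the abstract nodal curve.  RED provides, for a base divisor `I`
on the generic fibre (the polar divisor of the chart) and the lift `E0` of the generic divisor
`Ē0 = (E₁, E₂)`, only INCLUSIONS

  `hI  : ∀ n j : ℕ, d.resBall L(n • I - j • E0) ≤ s33nL N (n • I₁ - j • E₁) (n • I₂ - j • E₂)`,
  `hpE : d.resBall L(p • E0) ≤ s33nL N (p • E₁) (p • E₂)`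

and the numerics `deg I = deg I₁ + deg I₂`, `deg E0 = deg E₁ + deg E₂`, `g = p_a`.  For
`B := n • I`, `n` large, we deduce the EQUALITIES of the dictionary (inclusion + equal dimensions:
`finrank_resBall`, Riemann–Roch on the generic fibre, (N1) on the nodal curve), hence

* the fields `hKprod`, `hKhom`, `hKcol`, `hKunit` of `S33xChart` and `hone` (`s33h_closed`);
* the BRIDGE in the literal form of the hypothesis `hbridge` of helper4's `s33w_hbr`.

* `s33h_dict_eq`  : inclusion + numerics ⇒ equality;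
* `s33h_package`  : everything at once.
-/
import Mathlib
import Fermat.Agent.Lib.S33.Chart.Closed

set_option autoImplicit false
set_option linter.unusedSectionVars false

namespace Fermat.Agent.S33

open Module Fermat.Agent.Curve Fermat.Agent.CurveP AlgebraicCurve PlaceAux RRAux Fermat.Agent.Alpha
  Fermat.Agent.S33N Fermat.Agent.T2

variable {k F₁ F₂ σ₁ σ₂ : Type*} [Field k] [Field F₁] [Field F₂] [Algebra k F₁] [Algebra k F₂]
  [IsAlgClosed k] [Fintype σ₁] [Fintype σ₂]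
  {x₁ : F₁} {x₂ : F₂} (hx₁ : IsFunctionFieldGen k F₁ x₁) (hx₂ : IsFunctionFieldGen k F₂ x₂)
  [Algebra.IsSeparable (IntermediateField.adjoin k {x₁}) F₁]
  [Algebra.IsSeparable (IntermediateField.adjoin k {x₂}) F₂]
  (N : S33nDatum k F₁ F₂ σ₁ σ₂)
  {K F : Type*} [Field K] [Field F] [Algebra K F] [IsAlgClosed K]
  {x : F} (hx : IsFunctionFieldGen K F x)
  [Algebra.IsSeparable (IntermediateField.adjoin K {x}) F]
  (d : T2Base K F k (F₁ × F₂))

/-- `δ ≤ |σ₁| + |σ₂|`, i.e. `p_a ≤ g₁ + g₂ + |σ₁| + |σ₂| - 1`. -/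
theorem s33h_pa_le : s33nPa N ≤ (genusR k F₁ : ℤ) + genusR k F₂ + Fintype.card σ₁ +
    Fintype.card σ₂ - 1 := by
  rw [s33nPa, s33nDelta]
  have : (0 : ℤ) ≤ finrank k ↥N.Δ := Int.natCast_nonneg _
  omega

include hx₁ hx₂ hx in
/-- **inclusion + numerics ⇒ equality** of the reduction of `L(A)` with the nodal space. -/
theorem s33h_dict_eq {A : Divisor K F} {A₁ : Divisor k F₁} {A₂ : Divisor k F₂}
    (hle : d.resBall (riemannRochSpace A) ≤ s33nL N A₁ A₂) (hoff : N.Off A₁ A₂)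
    (hdegA : Divisor.degree A = Divisor.degree A₁ + Divisor.degree A₂)
    (hg : (genusR K F : ℤ) = s33nPa N)
    (h₁ : 2 * (genusR k F₁ : ℤ) - 1 + Fintype.card σ₁ ≤ Divisor.degree A₁)
    (h₂ : 2 * (genusR k F₂ : ℤ) - 1 + Fintype.card σ₂ ≤ Divisor.degree A₂)
    (h2g : 2 * (genusR K F : ℤ) - 1 ≤ Divisor.degree A) :
    d.resBall (riemannRochSpace A) = s33nL N A₁ A₂ := by
  have hf1 := finiteDimensional_riemannRochSpace hx A
  have hf2 := s33n_finiteDimensional hx₁ hx₂ N A₁ A₂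
  apply Submodule.eq_of_le_of_finrank_eq hle
  rw [d.finrank_resBall]
  have e1 := alpk_ell_eq hx (A := A) h2g
  have e2 := s33n_finrank hx₁ hx₂ N hoff h₁ h₂
  have : (finrank K ↥(riemannRochSpace A) : ℤ) = finrank k ↥(s33nL N A₁ A₂) := by
    rw [e2, ← hg, ← hdegA]
    exact e1
  exact_mod_cast this

include hx₁ hx₂ hx in
/-- **the closed-fibre package from the RED inclusions**: for `B := n • I`, `n` large, the four
closed-fibre KM fields of `S33xChart`, `hone`, and the BRIDGE (literal `hbridge` of `s33w_hbr`). -/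
theorem s33h_package (p : ℕ) [ExpChar k p]
    (hconn : ∀ c₁ c₂ : k, Sum.elim (fun _ : σ₁ => c₁) (fun _ : σ₂ => c₂) ∈ N.Δ → c₁ = c₂)
    {I E0 : Divisor K F} {I₁ E₁ : Divisor k F₁} {I₂ E₂ : Divisor k F₂}
    (hIoff : N.Off I₁ I₂) (hEoff : N.Off E₁ E₂) (hE0 : 0 ≤ E0) (hE₁ : 0 ≤ E₁) (hE₂ : 0 ≤ E₂)
    (hell : finrank k ↥(s33nL N E₁ E₂) = 1)
    (hdegI : Divisor.degree I = Divisor.degree I₁ + Divisor.degree I₂)
    (hdegE : Divisor.degree E0 = Divisor.degree E₁ + Divisor.degree E₂)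
    (hg : (genusR K F : ℤ) = s33nPa N)
    (hI : ∀ n j : ℕ, d.resBall (riemannRochSpace (n • I - j • E0)) ≤
      s33nL N (n • I₁ - j • E₁) (n • I₂ - j • E₂))
    (hpE : d.resBall (riemannRochSpace (p • E0)) ≤ s33nL N (p • E₁) (p • E₂))
    (n : ℕ)
    (hn₁ : 4 * (genusR k F₁ : ℤ) + 2 * Fintype.card σ₁ ≤ n * Divisor.degree I₁ - Divisor.degree E₁)
    (hn₂ : 4 * (genusR k F₂ : ℤ) + 2 * Fintype.card σ₂ ≤
      n * Divisor.degree I₂ - Divisor.degree E₂) :
    (d.resBall (riemannRochSpace (n • I + n • I - E0 - E0)) ≤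
      d.resBall (riemannRochSpace (n • I - E0)) * d.resBall (riemannRochSpace (n • I - E0))) ∧
    (∀ h : F₁ × F₂, (∀ t ∈ d.resBall (riemannRochSpace (n • I + n • I - E0 - E0)),
      h * t ∈ d.resBall (riemannRochSpace (n • I + n • I - E0))) →
      ∃ a : k, h = algebraMap k (F₁ × F₂) a) ∧
    (∀ u ∈ d.resBall (riemannRochSpace (n • I)),
      (∀ b ∈ d.resBall (riemannRochSpace (n • I - E0)),
        u * b ∈ d.resBall (riemannRochSpace (n • I + n • I - E0 - E0))) →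
      u ∈ d.resBall (riemannRochSpace (n • I - E0))) ∧
    (∀ {ι : Type} (f : ι → F₁ × F₂),
      Submodule.span k (Set.range f) = d.resBall (riemannRochSpace (n • I - E0)) →
      ∃ j, IsUnit (f j)) ∧
    (∀ t ∈ d.resBall (riemannRochSpace E0), ∃ a : k, t = algebraMap k (F₁ × F₂) a) ∧
    (∀ (X : Divisor K F) (w : F), w ≠ 0 →
      (∀ P : Place K F, P.ord w = ((p : ℤ) • X) P) → Divisor.degree X = 0 →
      ∀ hwO : w ∈ d.Ov, w⁻¹ ∈ d.Ov → d.res ⟨w, hwO⟩ = 1 →
        d.resBall (riemannRochSpace (E0 - X)) ≤ d.resBall (riemannRochSpace E0) ∧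
        d.resBall (riemannRochSpace (n • I - E0 - X)) =
          d.resBall (riemannRochSpace (n • I - E0))) := by
  have hg₁ : (0 : ℤ) ≤ genusR k F₁ := Int.natCast_nonneg _
  have hg₂ : (0 : ℤ) ≤ genusR k F₂ := Int.natCast_nonneg _
  have hc₁ : (0 : ℤ) ≤ Fintype.card σ₁ := Int.natCast_nonneg _
  have hc₂ : (0 : ℤ) ≤ Fintype.card σ₂ := Int.natCast_nonneg _
  have hpa := s33h_pa_le N
  -- the base divisor and its reductions
  have hBoff : N.Off (n • I₁) (n • I₂) :=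
    ⟨fun s => by rw [Finsupp.smul_apply, hIoff.1 s, smul_zero],
      fun s => by rw [Finsupp.smul_apply, hIoff.2 s, smul_zero]⟩
  have hB₁deg : Divisor.degree (n • I₁) = n * Divisor.degree I₁ := by
    rw [map_nsmul, nsmul_eq_mul]
  have hB₂deg : Divisor.degree (n • I₂) = n * Divisor.degree I₂ := by
    rw [map_nsmul, nsmul_eq_mul]
  have hBdeg : Divisor.degree (n • I) = n * Divisor.degree I₁ + n * Divisor.degree I₂ := by
    rw [map_nsmul, nsmul_eq_mul, hdegI]; ring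
  -- rewriting of the divisors
  have r1 : n • I - E0 = n • I - 1 • E0 := by rw [one_smul]
  have r1₁ : n • I₁ - E₁ = n • I₁ - 1 • E₁ := by rw [one_smul]
  have r1₂ : n • I₂ - E₂ = n • I₂ - 1 • E₂ := by rw [one_smul]
  have r2 : n • I + n • I - E0 - E0 = (2 * n) • I - 2 • E0 := by
    rw [two_mul, add_smul, two_smul]; abel
  have r2₁ : n • I₁ + n • I₁ - E₁ - E₁ = (2 * n) • I₁ - 2 • E₁ := by
    rw [two_mul, add_smul, two_smul]; abel
  have r2₂ : n • I₂ + n • I₂ - E₂ - E₂ = (2 * n) • I₂ - 2 • E₂ := by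
    rw [two_mul, add_smul, two_smul]; abel
  have r3 : n • I + n • I - E0 = (2 * n) • I - 1 • E0 := by
    rw [two_mul, add_smul, one_smul]
  have r3₁ : n • I₁ + n • I₁ - E₁ = (2 * n) • I₁ - 1 • E₁ := by
    rw [two_mul, add_smul, one_smul]
  have r3₂ : n • I₂ + n • I₂ - E₂ = (2 * n) • I₂ - 1 • E₂ := by
    rw [two_mul, add_smul, one_smul]
  -- the dictionary
  have hX : d.resBall (riemannRochSpace (n • I - E0)) = s33nL N (n • I₁ - E₁) (n • I₂ - E₂) := by
    refine s33h_dict_eq hx₁ hx₂ N hx d ?_ (hBoff.sub N hEoff) ?_ hg ?_ ?_ ?_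
    · rw [r1, r1₁, r1₂]; exact hI n 1
    · rw [map_sub, map_sub, map_sub, hBdeg, hB₁deg, hB₂deg, hdegE]; ring
    · rw [map_sub, hB₁deg]; omega
    · rw [map_sub, hB₂deg]; omega
    · rw [map_sub, hBdeg, hdegE, hg]; omega
  have hXX : d.resBall (riemannRochSpace (n • I + n • I - E0 - E0)) =
      s33nL N (n • I₁ + n • I₁ - E₁ - E₁) (n • I₂ + n • I₂ - E₂ - E₂) := by
    refine s33h_dict_eq hx₁ hx₂ N hx d ?_
      (((hBoff.add N hBoff).sub N hEoff).sub N hEoff) ?_ hg ?_ ?_ ?_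
    · rw [r2, r2₁, r2₂]; exact hI (2 * n) 2
    · simp only [map_sub, map_add, hBdeg, hB₁deg, hB₂deg, hdegE]; ring
    · simp only [map_sub, map_add, hB₁deg]; omega
    · simp only [map_sub, map_add, hB₂deg]; omega
    · simp only [map_sub, map_add, hBdeg, hdegE, hg]; omega
  have hZ : d.resBall (riemannRochSpace (n • I + n • I - E0)) ≤
      s33nL N (n • I₁ + n • I₁ - E₁) (n • I₂ + n • I₂ - E₂) := by
    rw [r3, r3₁, r3₂]; exact hI (2 * n) 1
  have hE : d.resBall (riemannRochSpace E0) ≤ s33nL N E₁ E₂ := by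
    have := s33h_bridge_le N d hx₁ hx₂ p E0 0 E₁ E₂ hpE 1 one_ne_zero
      (fun P => by rw [P.ord_one, smul_zero, Finsupp.zero_apply]) d.Ov.one_mem
      (by rw [inv_one]; exact d.Ov.one_mem) (map_one d.res)
    rwa [sub_zero] at this
  obtain ⟨k1, k2, k3, k4, k5⟩ := s33h_closed hx₁ hx₂ N d hconn hBoff hEoff hE₁ hE₂ hell
    (by rw [hB₁deg]; exact hn₁) (by rw [hB₂deg]; exact hn₂) hX hXX hZ hE
  refine ⟨k1, k2, k3, k4, k5, ?_⟩
  intro X w hw0 hdiv hXdeg hwO hwinv hres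
  have hdiv' : ∀ P : Place K F, P.ord w = (p • X) P := by
    intro P
    rw [hdiv P, natCast_zsmul]
  constructor
  · exact s33h_bridge_E0 N d hx₁ hx₂ p hE0 X hE₁ hE₂ hell hpE w hw0 hdiv' hwO hwinv hres
  · refine s33h_bridge_eq N d hx₁ hx₂ hx p (n • I - E0) X (n • I₁ - E₁) (n • I₂ - E₂) ?_ hX.ge ?_
      hXdeg w hw0 hdiv' hwO hwinv hres
    · have e : p • (n • I - E0) = (p * n) • I - p • E0 := by rw [smul_sub, mul_smul]
      have e₁ : p • (n • I₁ - E₁) = (p * n) • I₁ - p • E₁ := by rw [smul_sub, mul_smul]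
      have e₂ : p • (n • I₂ - E₂) = (p * n) • I₂ - p • E₂ := by rw [smul_sub, mul_smul]
      rw [e, e₁, e₂]
      exact hI (p * n) p
    · rw [map_sub, hBdeg, hdegE, hg]; omega

end Fermat.Agent.S33
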